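/-
S24 helper library (helper3): calculus of "vanishing below an exponent" for Laurent series
(`HahnSeries ℤ R`).  Used by the abstract lemma "places over a point = orbits of embeddings".
-/
import Mathlib

set_option autoImplicit false

namespace Fermat.Agent.S24

open HahnSeries

variable {R : Type*} [CommRing R]

/-- `po_VB x n`: all coefficients of `x` at exponents `< n` vanish. -/
def po_VB (x : HahnSeries ℤ R) (n : ℤ) : Prop := ∀ i : ℤ, i < n → x.coeff i = 0

theorem po_VB_zero (n : ℤ) : po_VB (0 : HahnSeries ℤ R) n := fun _ _ => rfl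

theorem po_VB.mono {x : HahnSeries ℤ R} {n n' : ℤ} (h : po_VB x n) (hn : n' ≤ n) :
    po_VB x n' := fun i hi => h i (lt_of_lt_of_le hi hn)

theorem po_VB.add {x y : HahnSeries ℤ R} {n : ℤ} (hx : po_VB x n) (hy : po_VB y n) :
    po_VB (x + y) n := fun i hi => by
  rw [HahnSeries.coeff_add, hx i hi, hy i hi, add_zero]

theorem po_VB.neg {x : HahnSeries ℤ R} {n : ℤ} (hx : po_VB x n) : po_VB (-x) n := fun i hi => by
  rw [HahnSeries.coeff_neg, hx i hi, neg_zero]

theorem po_VB.sub {x y : HahnSeries ℤ R} {n : ℤ} (hx : po_VB x n) (hy : po_VB y n) :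
    po_VB (x - y) n := fun i hi => by
  rw [HahnSeries.coeff_sub, hx i hi, hy i hi, sub_zero]

theorem po_VB.sum {ι : Type*} (s : Finset ι) (f : ι → HahnSeries ℤ R) {n : ℤ}
    (h : ∀ i ∈ s, po_VB (f i) n) : po_VB (∑ i ∈ s, f i) n := by
  classical
  induction s using Finset.induction_on with
  | empty => simpa using po_VB_zero n
  | insert a s ha ih =>
    rw [Finset.sum_insert ha]
    exact (h a (Finset.mem_insert_self a s)).add
      (ih fun i hi => h i (Finset.mem_insert_of_mem hi))

theorem po_VB.mul {x y : HahnSeries ℤ R} {a b : ℤ} (hx : po_VB x a) (hy : po_VB y b) :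
    po_VB (x * y) (a + b) := fun i hi => by
  rw [HahnSeries.coeff_mul]
  refine Finset.sum_eq_zero fun p hp => ?_
  rw [Finset.mem_antidiagonal] at hp
  obtain ⟨_, _, hpq⟩ := hp
  by_cases h1 : p.1 < a
  · rw [hx _ h1, zero_mul]
  · by_cases h2 : p.2 < b
    · rw [hy _ h2, mul_zero]
    · exfalso; omega

/-- The corner coefficient of a product. -/
theorem po_coeff_mul_corner {x y : HahnSeries ℤ R} {a b : ℤ} (hx : po_VB x a) (hy : po_VB y b) :
    (x * y).coeff (a + b) = x.coeff a * y.coeff b := by
  rw [HahnSeries.coeff_mul]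
  rw [Finset.sum_eq_single (a, b)]
  · intro p hp hne
    rw [Finset.mem_antidiagonal] at hp
    obtain ⟨_, _, hpq⟩ := hp
    by_cases h1 : p.1 < a
    · rw [hx _ h1, zero_mul]
    · by_cases h2 : p.2 < b
      · rw [hy _ h2, mul_zero]
      · exfalso
        apply hne
        have e1 : p.1 = a := by omega
        have e2 : p.2 = b := by omega
        exact Prod.ext e1 e2
  · intro hnot
    rw [Finset.mem_antidiagonal] at hnot
    by_cases h1 : x.coeff a = 0
    · rw [h1, zero_mul]
    · by_cases h2 : y.coeff b = 0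
      · rw [h2, mul_zero]
      · exact absurd ⟨h1, h2, rfl⟩ hnot

theorem po_VB_one : po_VB (1 : HahnSeries ℤ R) 0 := fun i hi => by
  rw [HahnSeries.coeff_one, if_neg (ne_of_lt hi)]

theorem po_VB.pow {x : HahnSeries ℤ R} {a : ℤ} (hx : po_VB x a) (n : ℕ) :
    po_VB (x ^ n) (n * a) := by
  induction n with
  | zero => simpa using po_VB_one
  | succ n ih =>
    rw [pow_succ]
    have := ih.mul hx
    convert this using 1
    push_cast; ring

theorem po_coeff_pow_corner {x : HahnSeries ℤ R} {a : ℤ} (hx : po_VB x a) (n : ℕ) :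
    (x ^ n).coeff (n * a) = (x.coeff a) ^ n := by
  induction n with
  | zero => simp
  | succ n ih =>
    rw [pow_succ, pow_succ, ← ih, ← po_coeff_mul_corner (hx.pow n) hx]
    congr 1
    push_cast; ring

/-- A nonzero series vanishes below its order. -/
theorem po_VB_order (x : HahnSeries ℤ R) : po_VB x x.order := fun _ hi =>
  HahnSeries.coeff_eq_zero_of_lt_order hi

theorem po_VB_of_le_order {x : HahnSeries ℤ R} {n : ℤ} (h : n ≤ x.order) : po_VB x n :=
  (po_VB_order x).mono h

/-- If `x` vanishes below `n` and its coefficient at `n` is nonzero, then `n` is the order. -/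
theorem po_order_eq_of_VB {x : HahnSeries ℤ R} {n : ℤ} (h : po_VB x n) (hn : x.coeff n ≠ 0) :
    x.order = n := by
  apply le_antisymm
  · exact HahnSeries.order_le_of_coeff_ne_zero hn
  · by_contra hlt
    rw [not_le] at hlt
    have hx : x ≠ 0 := HahnSeries.ne_zero_of_coeff_ne_zero hn
    exact (HahnSeries.coeff_order_eq_zero.not.mpr hx) (h _ hlt)

theorem po_le_order_of_VB {x : HahnSeries ℤ R} {n : ℤ} (h : po_VB x n) (hx : x ≠ 0) :
    n ≤ x.order := by
  by_contra hlt
  rw [not_le] at hlt
  exact (HahnSeries.coeff_order_eq_zero.not.mpr hx) (h _ hlt)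

/-- A series vanishing below every exponent is zero. -/
theorem po_eq_zero_of_forall_VB {x : HahnSeries ℤ R} (h : ∀ n : ℤ, po_VB x n) : x = 0 := by
  ext i
  exact h (i + 1) i (by omega)

theorem po_VB_C (c : R) : po_VB (HahnSeries.C c : HahnSeries ℤ R) 0 := fun i hi => by
  rw [HahnSeries.C_apply, HahnSeries.coeff_single_of_ne (ne_of_lt hi)]

end Fermat.Agent.S24
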