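/-
S24 helper library (helper3): the place of a function field `F/K` attached to an embedding
`φ : F →ₐ[K] K'((s))` (pull-back of the `s`-adic valuation), and its relation to the prelude
`Place.ord`.
-/
import Mathlib
import Fermat.Prelude.Def_AlgebraicCurve_DivisorClassGroup
import Fermat.Agent.S24.PlacesOrbits.Vanish

set_option autoImplicit false

namespace Fermat.Agent.S24

open AlgebraicCurve HahnSeries

variable {K K' F : Type*} [Field K] [Field K'] [Algebra K K'] [Field F] [Algebra K F]

/-- The `s`-adic order of the image of `f` under `φ` (`0` for `f = 0`). -/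
noncomputable def po_ord (φ : F →ₐ[K] LaurentSeries K') (f : F) : ℤ := (φ f).order

variable (φ : F →ₐ[K] LaurentSeries K')

theorem po_ord_def (f : F) : po_ord φ f = (φ f).order := rfl

@[simp] theorem po_ord_zero : po_ord φ 0 = 0 := by simp [po_ord]

@[simp] theorem po_ord_one : po_ord φ 1 = 0 := by simp [po_ord]

theorem po_map_ne_zero {f : F} (hf : f ≠ 0) : φ f ≠ 0 := (map_ne_zero φ).mpr hf

theorem po_ord_mul {f h : F} (hf : f ≠ 0) (hh : h ≠ 0) :
    po_ord φ (f * h) = po_ord φ f + po_ord φ h := by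
  unfold po_ord
  rw [map_mul, HahnSeries.order_mul (po_map_ne_zero φ hf) (po_map_ne_zero φ hh)]

theorem po_ord_inv (f : F) : po_ord φ f⁻¹ = -po_ord φ f := by
  rcases eq_or_ne f 0 with rfl | hf
  · simp
  · have h := po_ord_mul φ hf (inv_ne_zero hf)
    rw [mul_inv_cancel₀ hf, po_ord_one] at h
    omega

theorem po_ord_neg (f : F) : po_ord φ (-f) = po_ord φ f := by
  unfold po_ord
  rw [map_neg, HahnSeries.order_neg]

theorem po_ord_pow (f : F) (n : ℕ) : po_ord φ (f ^ n) = n * po_ord φ f := by
  unfold po_ord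
  rw [map_pow, HahnSeries.order_pow, nsmul_eq_mul]

theorem po_ord_zpow (f : F) (n : ℤ) : po_ord φ (f ^ n) = n * po_ord φ f := by
  cases n with
  | ofNat n => simpa using po_ord_pow φ f n
  | negSucc n =>
    rw [zpow_negSucc, po_ord_inv, po_ord_pow, Int.negSucc_eq]
    push_cast; ring

theorem po_map_algebraMap (c : K) :
    φ (algebraMap K F c) = HahnSeries.C (algebraMap K K' c) := by
  rw [AlgHom.commutes, HahnSeries.algebraMap_apply', PowerSeries.algebraMap_apply,
    HahnSeries.ofPowerSeries_C]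

@[simp] theorem po_ord_algebraMap (c : K) : po_ord φ (algebraMap K F c) = 0 := by
  unfold po_ord
  rw [po_map_algebraMap, HahnSeries.order_C]

theorem po_ord_add {f h : F} (hfh : f + h ≠ 0) :
    min (po_ord φ f) (po_ord φ h) ≤ po_ord φ (f + h) := by
  unfold po_ord
  rw [map_add]
  apply HahnSeries.min_order_le_order_add
  rw [← map_add]
  exact po_map_ne_zero φ hfh

/-- `φ f` vanishes below `po_ord φ f`. -/
theorem po_VB_ord (f : F) : po_VB (φ f) (po_ord φ f) := po_VB_order _

theorem po_VB_of_le_ord {f : F} {n : ℤ} (h : n ≤ po_ord φ f) : po_VB (φ f) n :=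
  po_VB_of_le_order h

theorem po_coeff_ord_ne_zero {f : F} (hf : f ≠ 0) : (φ f).coeff (po_ord φ f) ≠ 0 :=
  HahnSeries.coeff_order_eq_zero.not.mpr (po_map_ne_zero φ hf)

/-- The valuation subring of `F` pulled back from `K'[[s]]`. -/
noncomputable def po_valSubring : ValuationSubring F where
  carrier := {f | 0 ≤ po_ord φ f}
  mul_mem' := by
    intro a b ha hb
    simp only [Set.mem_ofPred_eq] at ha hb ⊢
    rcases eq_or_ne a 0 with rfl | ha0
    · simp
    rcases eq_or_ne b 0 with rfl | hb0
    · simp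
    rw [po_ord_mul φ ha0 hb0]
    omega
  one_mem' := by simp
  add_mem' := by
    intro a b ha hb
    simp only [Set.mem_ofPred_eq] at ha hb ⊢
    rcases eq_or_ne (a + b) 0 with h0 | h0
    · rw [h0]; simp
    · exact le_trans (le_min ha hb) (po_ord_add φ h0)
  zero_mem' := by simp
  neg_mem' := by
    intro a ha
    simp only [Set.mem_ofPred_eq] at ha ⊢
    rwa [po_ord_neg]
  mem_or_inv_mem' := by
    intro a
    simp only [Set.mem_ofPred_eq]
    rw [po_ord_inv]
    omega

theorem po_mem_valSubring {f : F} : f ∈ po_valSubring φ ↔ 0 ≤ po_ord φ f := Iff.rfl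

theorem po_algebraMap_mem (c : K) : algebraMap K F c ∈ po_valSubring φ := by
  rw [po_mem_valSubring, po_ord_algebraMap]

theorem po_valSubring_ne_top (hφ : ∃ f : F, 0 < po_ord φ f) : po_valSubring φ ≠ ⊤ := by
  obtain ⟨f, hf⟩ := hφ
  intro h
  have : f⁻¹ ∈ po_valSubring φ := by rw [h]; exact ValuationSubring.mem_top _
  rw [po_mem_valSubring, po_ord_inv] at this
  omega

theorem po_isPrincipalIdealRing : IsPrincipalIdealRing (po_valSubring φ) := by
  classical
  refine ⟨fun I => ?_⟩
  by_cases hI : I = ⊥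
  · rw [hI]; exact bot_isPrincipal
  · obtain ⟨a0, ha0I, ha0⟩ := Submodule.exists_mem_ne_zero_of_ne_bot hI
    have hex : ∃ n : ℕ, ∃ a ∈ I, a ≠ 0 ∧ po_ord φ (a : F) = n :=
      ⟨(po_ord φ a0).toNat, a0, ha0I, ha0, (Int.toNat_of_nonneg a0.2).symm⟩
    obtain ⟨a, haI, ha, han⟩ := Nat.find_spec hex
    refine ⟨⟨a, ?_⟩⟩
    apply le_antisymm
    · intro b hb
      by_cases hb0 : b = 0
      · rw [hb0]; exact Submodule.zero_mem _
      · have hle : po_ord φ (a : F) ≤ po_ord φ (b : F) := by
          rw [han]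
          have h1 : Nat.find hex ≤ (po_ord φ (b : F)).toNat :=
            Nat.find_min' hex ⟨b, hb, hb0, (Int.toNat_of_nonneg b.2).symm⟩
          have h2 := Int.toNat_of_nonneg b.2
          omega
        have haF : (a : F) ≠ 0 := fun h => ha (Subtype.ext h)
        have hbF : (b : F) ≠ 0 := fun h => hb0 (Subtype.ext h)
        have hq : (b : F) * (a : F)⁻¹ ∈ po_valSubring φ := by
          rw [po_mem_valSubring, po_ord_mul φ hbF (inv_ne_zero haF), po_ord_inv]
          omega
        rw [Submodule.mem_span_singleton]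
        refine ⟨⟨(b : F) * (a : F)⁻¹, hq⟩, ?_⟩
        apply Subtype.ext
        simp only [smul_eq_mul, MulMemClass.coe_mul]
        field_simp
    · rw [Submodule.span_le, Set.singleton_subset_iff]
      exact haI

/-- The place of `F/K` attached to an embedding `φ : F →ₐ[K] K'((s))` that is not
"constant" (some element has positive order). -/
noncomputable def po_place (hφ : ∃ f : F, 0 < po_ord φ f) : Place K F where
  toValuationSubring := po_valSubring φ
  algebraMap_mem' := po_algebraMap_mem φ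
  ne_top' := po_valSubring_ne_top φ hφ
  isPrincipalIdealRing' := po_isPrincipalIdealRing φ

@[simp] theorem po_place_toValuationSubring (hφ : ∃ f : F, 0 < po_ord φ f) :
    (po_place φ hφ).toValuationSubring = po_valSubring φ := rfl

/-- Units of the valuation ring have order `0`. -/
theorem po_ord_unit (u : (po_valSubring φ)ˣ) : po_ord φ ((u : po_valSubring φ) : F) = 0 := by
  have h1 : 0 ≤ po_ord φ ((u : po_valSubring φ) : F) := (u : po_valSubring φ).2
  have h2 : 0 ≤ po_ord φ (((u⁻¹ : (po_valSubring φ)ˣ) : po_valSubring φ) : F) :=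
    ((u⁻¹ : (po_valSubring φ)ˣ) : po_valSubring φ).2
  have h3 : (((u⁻¹ : (po_valSubring φ)ˣ) : po_valSubring φ) : F)
      = ((u : po_valSubring φ) : F)⁻¹ := by
    have := congrArg (Subtype.val) (u.inv_mul)
    simp only [MulMemClass.coe_mul, OneMemClass.coe_one] at this
    exact eq_inv_of_mul_eq_one_left this
  rw [h3, po_ord_inv] at h2
  omega

/-- An irreducible element of the valuation ring has positive order. -/
theorem po_ord_irreducible_pos {ϖ : po_valSubring φ} (hϖ : Irreducible ϖ) :
    0 < po_ord φ (ϖ : F) := by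
  have h1 : 0 ≤ po_ord φ (ϖ : F) := ϖ.2
  rcases h1.lt_or_eq with h | h
  · exact h
  · exfalso
    apply hϖ.not_isUnit
    have hϖ0 : (ϖ : F) ≠ 0 := fun h0 => hϖ.ne_zero (Subtype.ext h0)
    have hinv : (ϖ : F)⁻¹ ∈ po_valSubring φ := by
      rw [po_mem_valSubring, po_ord_inv]; omega
    refine IsUnit.of_mul_eq_one ⟨(ϖ : F)⁻¹, hinv⟩ ?_
    apply Subtype.ext
    simp only [MulMemClass.coe_mul, OneMemClass.coe_one]
    exact mul_inv_cancel₀ hϖ0

/-- The order along `φ` is the order of a uniformizer times the prelude `Place.ord`. -/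
theorem po_ord_eq_mul_ord (hφ : ∃ f : F, 0 < po_ord φ f) {ϖ : po_valSubring φ}
    (hϖ : Irreducible ϖ) (f : F) :
    po_ord φ f = po_ord φ (ϖ : F) * (po_place φ hφ).ord f := by
  rcases eq_or_ne f 0 with rfl | hf
  · simp
  · obtain ⟨u, hu⟩ := (po_place φ hφ).exists_unit_mul_zpow hf
      (π := (ϖ : (po_place φ hφ).toValuationSubring)) hϖ
    have hϖ0 : (ϖ : F) ≠ 0 := fun h0 => hϖ.ne_zero (Subtype.ext h0)
    have hu0 : ((u : (po_place φ hφ).toValuationSubring) : F) ≠ 0 := by
      intro h0
      exact (Units.ne_zero u) (Subtype.ext h0)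
    conv_lhs => rw [hu]
    rw [po_ord_mul φ hu0 (zpow_ne_zero _ hϖ0), po_ord_zpow]
    have := po_ord_unit φ u
    rw [this, zero_add, mul_comm]

end Fermat.Agent.S24
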