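/-
S24 helper library (helper3): uniqueness of an embedding `F →ₐ[K] K'((s))` with prescribed place,
prescribed image of one non-constant element and prescribed leading coefficient of a uniformizer.
-/
import Mathlib
import Fermat.Prelude.Def_AlgebraicCurve_DivisorClassGroup
import Fermat.Agent.S24.PlacesOrbits.PlaceOfEmb

set_option autoImplicit false

namespace Fermat.Agent.S24

open AlgebraicCurve HahnSeries

variable {K K' F : Type*} [Field K] [Field K'] [Algebra K K'] [Field F] [Algebra K F]

/-- Peeling off the constant term: if the residue field of `v` is `K`, every element of the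
valuation ring is a constant plus a multiple of the uniformizer. -/
theorem po_exists_peel (v : Place K F)
    (hres : Function.Surjective (algebraMap K v.ResidueField))
    {ϖ : v.toValuationSubring} (hϖ : Irreducible ϖ) (h : v.toValuationSubring) :
    ∃ (c : K) (h' : v.toValuationSubring), (h : F) = algebraMap K F c + (ϖ : F) * (h' : F) := by
  obtain ⟨c, hc⟩ := hres (IsLocalRing.residue _ h)
  have h0 : IsLocalRing.residue v.toValuationSubring (h - algebraMap K v.toValuationSubring c)
      = 0 := by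
    rw [map_sub, ← hc]
    exact sub_self _
  rw [IsLocalRing.residue_eq_zero_iff, hϖ.maximalIdeal_eq, Ideal.mem_span_singleton'] at h0
  obtain ⟨a, ha⟩ := h0
  refine ⟨c, a, ?_⟩
  have := congrArg (Subtype.val) ha
  simp only [MulMemClass.coe_mul, AddSubgroupClass.coe_sub, Place.coe_algebraMap] at this
  rw [mul_comm (ϖ : F), this]
  ring

variable (φ φ' : F →ₐ[K] LaurentSeries K')

/-- The difference of two embeddings satisfies a twisted Leibniz rule. -/
theorem po_diff_mul (f h : F) :
    φ (f * h) - φ' (f * h) = (φ f - φ' f) * φ h + φ' f * (φ h - φ' h) := by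
  rw [map_mul, map_mul]; ring

/-- Peeling lemma: a bound for the difference on the uniformizer propagates to the whole
valuation ring. -/
theorem po_peeling (hφ : ∃ f : F, 0 < po_ord φ f)
    (hord : ∀ f : F, po_ord φ f = po_ord φ' f)
    (hres : Function.Surjective (algebraMap K (po_place φ hφ).ResidueField))
    {ϖ : po_valSubring φ} (hϖ : Irreducible ϖ) {n : ℤ}
    (hn : po_VB (φ (ϖ : F) - φ' (ϖ : F)) n) (h : po_valSubring φ) :
    po_VB (φ (h : F) - φ' (h : F)) n := by
  have hg : 0 < po_ord φ (ϖ : F) := po_ord_irreducible_pos φ hϖ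
  have key : ∀ k : ℕ, ∀ h : po_valSubring φ,
      po_VB (φ (h : F) - φ' (h : F)) (min n (k * po_ord φ (ϖ : F))) := by
    intro k
    induction k with
    | zero =>
      intro h
      have h1 : po_VB (φ (h : F)) 0 := po_VB_of_le_ord φ h.2
      have h2 : po_VB (φ' (h : F)) 0 := po_VB_of_le_ord φ' (by rw [← hord]; exact h.2)
      refine (h1.sub h2).mono ?_
      simp
    | succ k ih =>
      intro h
      obtain ⟨c, h', hh'⟩ := po_exists_peel (po_place φ hφ) hres
        (ϖ := (ϖ : (po_place φ hφ).toValuationSubring)) hϖ h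
      have e1 : φ (h : F) - φ' (h : F)
          = (φ (ϖ : F) - φ' (ϖ : F)) * φ (h' : F) + φ' (ϖ : F) * (φ (h' : F) - φ' (h' : F)) := by
        rw [← po_diff_mul, hh', map_add, map_add, AlgHom.commutes, AlgHom.commutes]
        ring
      rw [e1]
      have t1 : po_VB ((φ (ϖ : F) - φ' (ϖ : F)) * φ (h' : F)) (n + 0) :=
        hn.mul (po_VB_of_le_ord φ h'.2)
      have t2 : po_VB (φ' (ϖ : F) * (φ (h' : F) - φ' (h' : F)))
          (po_ord φ (ϖ : F) + min n (k * po_ord φ (ϖ : F))) := by
        refine po_VB.mul ?_ (ih h')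
        rw [hord]
        exact po_VB_ord φ' _
      refine (t1.mono ?_).add (t2.mono ?_)
      · rw [add_zero]; exact min_le_left _ _
      · push_cast
        rcases le_total n (k * po_ord φ (ϖ : F)) with hle | hle
        · rw [min_eq_left hle]
          exact le_trans (min_le_left _ _) (by omega)
        · rw [min_eq_right hle]
          exact le_trans (min_le_right _ _) (by linarith)
  have := key n.toNat h
  refine this.mono ?_
  apply le_min le_rfl
  have h1 : n ≤ (n.toNat : ℤ) := Int.self_le_toNat n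
  have h2 : (0 : ℤ) ≤ (n.toNat : ℤ) := Int.natCast_nonneg _
  nlinarith

/-- If two embeddings with the same order function agree on a uniformizer, they agree. -/
theorem po_eq_of_eq_on_uniformizer (hφ : ∃ f : F, 0 < po_ord φ f)
    (hord : ∀ f : F, po_ord φ f = po_ord φ' f)
    (hres : Function.Surjective (algebraMap K (po_place φ hφ).ResidueField))
    {ϖ : po_valSubring φ} (hϖ : Irreducible ϖ)
    (hP : φ (ϖ : F) = φ' (ϖ : F)) : φ = φ' := by
  have hA : ∀ h : po_valSubring φ, φ (h : F) = φ' (h : F) := by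
    intro h
    rw [← sub_eq_zero]
    apply po_eq_zero_of_forall_VB
    intro n
    apply po_peeling φ φ' hφ hord hres hϖ _ h
    rw [hP, sub_self]
    exact po_VB_zero n
  apply AlgHom.ext
  intro f
  rcases (po_valSubring φ).mem_or_inv_mem f with hf | hf
  · exact hA ⟨f, hf⟩
  · have := hA ⟨f⁻¹, hf⟩
    simp only [map_inv₀] at this
    exact inv_injective this

/-- **Uniqueness lemma.** Two embeddings `F →ₐ[K] K'((s))` with the same order function
(hence the same place, with residue field `K`), the same image of one element `π` of positive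
order, and the same leading coefficient on a uniformizer are equal (characteristic zero). -/
theorem po_embedding_unique [CharZero K'] (hφ : ∃ f : F, 0 < po_ord φ f)
    (hord : ∀ f : F, po_ord φ f = po_ord φ' f)
    (hres : Function.Surjective (algebraMap K (po_place φ hφ).ResidueField))
    {ϖ : po_valSubring φ} (hϖ : Irreducible ϖ)
    (hlead : (φ (ϖ : F)).coeff (po_ord φ (ϖ : F)) = (φ' (ϖ : F)).coeff (po_ord φ (ϖ : F)))
    (π : F) (hπ : 0 < po_ord φ π) (hπeq : φ π = φ' π) : φ = φ' := by
  by_contra hne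
  set g : ℤ := po_ord φ (ϖ : F) with hgdef
  have hg : 0 < g := po_ord_irreducible_pos φ hϖ
  set P := φ (ϖ : F) with hPdef
  set P' := φ' (ϖ : F) with hP'def
  have hΔ : P - P' ≠ 0 := by
    intro h0
    exact hne (po_eq_of_eq_on_uniformizer φ φ' hφ hord hres hϖ (sub_eq_zero.mp h0))
  set N₀ : ℤ := (P - P').order with hN₀
  have hβ : (P - P').coeff N₀ ≠ 0 := HahnSeries.coeff_order_eq_zero.not.mpr hΔ
  have hPVB : po_VB P g := po_VB_ord φ _
  have hP'VB : po_VB P' g := by
    have := po_VB_ord φ' (ϖ : F)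
    rwa [← hord] at this
  -- N₀ > g
  have hN₀g : g + 1 ≤ N₀ := by
    apply po_le_order_of_VB _ hΔ
    intro i hi
    rcases (Int.lt_add_one_iff.mp hi).lt_or_eq with h | h
    · exact (hPVB.sub hP'VB) i h
    · rw [h, HahnSeries.coeff_sub, hlead, sub_self]
  have hϖ0 : (ϖ : F) ≠ 0 := fun h0 => hϖ.ne_zero (Subtype.ext h0)
  have hb : P.coeff g ≠ 0 := po_coeff_ord_ne_zero φ hϖ0
  have hb' : P'.coeff g = P.coeff g := hlead.symm
  -- decompose π
  have hπ0 : π ≠ 0 := by
    rintro rfl
    simp at hπ
  obtain ⟨u, hu⟩ := (po_place φ hφ).exists_unit_mul_zpow hπ0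
    (π := (ϖ : (po_place φ hφ).toValuationSubring)) hϖ
  have hepos : 0 < (po_place φ hφ).ord π := by
    have := po_ord_eq_mul_ord φ hφ hϖ π
    rw [this] at hπ
    exact (mul_pos_iff_of_pos_left hg).mp hπ
  obtain ⟨e, he⟩ := Int.eq_ofNat_of_zero_le hepos.le
  rw [he, zpow_natCast] at hu
  have he1 : 1 ≤ e := by omega
  set uF : F := ((u : (po_place φ hφ).toValuationSubring) : F) with huF
  have hu0 : uF ≠ 0 := by
    intro h0
    exact (Units.ne_zero u) (Subtype.ext h0)
  have hordu : po_ord φ uF = 0 := po_ord_unit φ u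
  have hordu' : po_ord φ' uF = 0 := by rw [← hord]; exact hordu
  have hu₀ : (φ' uF).coeff 0 ≠ 0 := by
    have := po_coeff_ord_ne_zero φ' hu0
    rwa [hordu'] at this
  have huVB : po_VB (φ' uF) 0 := by
    have := po_VB_ord φ' uF
    rwa [hordu'] at this
  -- δ u vanishes below N₀
  have hδu : po_VB (φ uF - φ' uF) N₀ :=
    po_peeling φ φ' hφ hord hres hϖ (po_VB_order _) (u : (po_place φ hφ).toValuationSubring)
  -- the geometric sum
  set S : LaurentSeries K' := ∑ i ∈ Finset.range e, P ^ i * P' ^ (e - 1 - i) with hS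
  have hSmul : S * (P - P') = P ^ e - P' ^ e := (Commute.all P P').geom_sum₂_mul e
  have hterm : ∀ i ∈ Finset.range e, po_VB (P ^ i * P' ^ (e - 1 - i)) (((e : ℤ) - 1) * g) ∧
      (P ^ i * P' ^ (e - 1 - i)).coeff (((e : ℤ) - 1) * g) = (P.coeff g) ^ (e - 1) := by
    intro i hi
    rw [Finset.mem_range] at hi
    have hidx : ((i : ℤ) * g + ((e - 1 - i : ℕ) : ℤ) * g) = ((e : ℤ) - 1) * g := by
      have : ((e - 1 - i : ℕ) : ℤ) = (e : ℤ) - 1 - i := by omega
      rw [this]; ring
    constructor
    · have := (hPVB.pow i).mul (hP'VB.pow (e - 1 - i))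
      rwa [hidx] at this
    · have := po_coeff_mul_corner (hPVB.pow i) (hP'VB.pow (e - 1 - i))
      rw [hidx] at this
      rw [this, po_coeff_pow_corner hPVB, po_coeff_pow_corner hP'VB, hb', ← _root_.pow_add]
      congr 1
      omega
  have hSVB : po_VB S (((e : ℤ) - 1) * g) := po_VB.sum _ _ fun i hi => (hterm i hi).1
  have hScoeff : S.coeff (((e : ℤ) - 1) * g) = (e : K') * (P.coeff g) ^ (e - 1) := by
    rw [hS, HahnSeries.coeff_sum]
    rw [Finset.sum_congr rfl fun i hi => (hterm i hi).2]
    simp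
  -- δ π = 0
  have hδπ : (φ uF - φ' uF) * P ^ e + φ' uF * (S * (P - P')) = 0 := by
    rw [hSmul]
    have h1 : φ π = φ uF * P ^ e := by rw [hu, map_mul, map_pow]
    have h2 : φ' π = φ' uF * P' ^ e := by rw [hu, map_mul, map_pow]
    have h3 : φ uF * P ^ e = φ' uF * P' ^ e := by rw [← h1, ← h2, hπeq]
    linear_combination h3
  -- look at the coefficient at N₀ + (e-1) g
  have hc := congrArg (fun x : LaurentSeries K' => x.coeff (0 + (((e : ℤ) - 1) * g + N₀))) hδπ
  simp only [HahnSeries.coeff_add, HahnSeries.coeff_zero] at hc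
  have hc1 : ((φ uF - φ' uF) * P ^ e).coeff (0 + (((e : ℤ) - 1) * g + N₀)) = 0 := by
    have := hδu.mul (hPVB.pow e)
    apply this
    nlinarith
  have hc2 : (φ' uF * (S * (P - P'))).coeff (0 + (((e : ℤ) - 1) * g + N₀))
      = (φ' uF).coeff 0 * ((e : K') * (P.coeff g) ^ (e - 1) * (P - P').coeff N₀) := by
    rw [po_coeff_mul_corner huVB (hSVB.mul (po_VB_order _)),
      po_coeff_mul_corner hSVB (po_VB_order _), hScoeff]
  rw [hc1, hc2, zero_add] at hc
  have he0 : (e : K') ≠ 0 := by
    rw [Nat.cast_ne_zero]; omega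
  exact (mul_ne_zero hu₀ (mul_ne_zero (mul_ne_zero he0 (pow_ne_zero _ hb)) hβ)) hc

end Fermat.Agent.S24
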