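/-
S24 helper library (helper3): a finite family of embeddings `φ x : F →ₐ[K] K'((s))`, all with the
same image of `π`, permuted by a "rotation" `ρ` twisting the `i`-th coefficient by `ζ₀ ^ i`.
The attached places only depend on the `ρ`-orbit, distinct orbits give distinct places, and the
ramification index of `π` at the place of `x` is the size of the orbit of `x`.
-/
import Mathlib
import Fermat.Prelude.Def_AlgebraicCurve_DivisorClassGroup
import Fermat.Agent.S24.PlacesOrbits.Unique

set_option autoImplicit false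

namespace Fermat.Agent.S24

open AlgebraicCurve HahnSeries

variable {K K' F : Type*} [Field K] [Field K'] [Algebra K K'] [Field F] [Algebra K F]

/-- Transport of irreducibility along an equality of valuation subrings. -/
theorem po_irreducible_transport {A B : ValuationSubring F} (h : A = B) (ϖ : A)
    (hϖ : Irreducible ϖ) : Irreducible (⟨(ϖ : F), h ▸ ϖ.2⟩ : B) := by
  subst h
  exact hϖ

/-- The hypotheses of the "places = orbits" lemma. -/
structure po_Hyp (π : F) (m : ℕ) (ζ₀ : K') {X : Type*} (φ : X → F →ₐ[K] LaurentSeries K')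
    (p₀ : LaurentSeries K') (ρ : Equiv.Perm X) : Prop where
  hm : 0 < m
  hζ₀ : IsPrimitiveRoot ζ₀ m
  inj : Function.Injective φ
  hp₀ : p₀.order = m
  hφπ : ∀ x, φ x π = p₀
  hρ : ∀ (x : X) (f : F) (i : ℤ), (φ (ρ x) f).coeff i = ζ₀ ^ i * (φ x f).coeff i
  hres : ∀ v : Place K F, 0 < v.ord π → Function.Surjective (algebraMap K v.ResidueField)

namespace po_Hyp

variable {π : F} {m : ℕ} {ζ₀ : K'} {X : Type*} {φ : X → F →ₐ[K] LaurentSeries K'}
  {p₀ : LaurentSeries K'} {ρ : Equiv.Perm X} (H : po_Hyp π m ζ₀ φ p₀ ρ)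

include H

theorem ord_pi (x : X) : po_ord (φ x) π = m := by
  rw [po_ord_def, H.hφπ, H.hp₀]

theorem nonconst (x : X) : ∃ f : F, 0 < po_ord (φ x) f :=
  ⟨π, by rw [H.ord_pi]; exact_mod_cast H.hm⟩

theorem zeta_ne_zero : ζ₀ ≠ 0 := H.hζ₀.ne_zero H.hm.ne'

theorem coeff_iter (k : ℕ) (x : X) (f : F) (i : ℤ) :
    (φ ((ρ ^ k) x) f).coeff i = (ζ₀ ^ i) ^ k * (φ x f).coeff i := by
  induction k with
  | zero => simp
  | succ k ih =>
    rw [pow_succ', Equiv.Perm.mul_apply, H.hρ, ih, pow_succ]
    ring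

theorem ord_rho (x : X) (f : F) : po_ord (φ (ρ x)) f = po_ord (φ x) f := by
  rcases eq_or_ne f 0 with rfl | hf
  · simp
  · rw [po_ord_def]
    apply po_order_eq_of_VB
    · intro i hi
      rw [H.hρ, po_VB_ord (φ x) f i hi, mul_zero]
    · rw [H.hρ]
      exact mul_ne_zero (zpow_ne_zero _ H.zeta_ne_zero) (po_coeff_ord_ne_zero (φ x) hf)

theorem ord_iter (k : ℕ) (x : X) (f : F) : po_ord (φ ((ρ ^ k) x)) f = po_ord (φ x) f := by
  induction k with
  | zero => simp
  | succ k ih => rw [pow_succ', Equiv.Perm.mul_apply, H.ord_rho, ih]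

theorem valSubring_iter (k : ℕ) (x : X) :
    po_valSubring (φ ((ρ ^ k) x)) = po_valSubring (φ x) := by
  ext f
  rw [po_mem_valSubring, po_mem_valSubring, H.ord_iter]

/-- The place attached to `x`. -/
noncomputable def plc (x : X) : Place K F := po_place (φ x) (H.nonconst x)

theorem plc_toValuationSubring (x : X) : (H.plc x).toValuationSubring = po_valSubring (φ x) := rfl

theorem plc_iter (k : ℕ) (x : X) : H.plc ((ρ ^ k) x) = H.plc x :=
  Place.ext (H.valSubring_iter k x)

theorem plc_rho (x : X) : H.plc (ρ x) = H.plc x := by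
  simpa using H.plc_iter 1 x

theorem plc_rho_symm (x : X) : H.plc (ρ.symm x) = H.plc x := by
  have := H.plc_rho (ρ.symm x)
  rw [Equiv.apply_symm_apply] at this
  exact this.symm

theorem exists_irreducible (x : X) : ∃ ϖ : po_valSubring (φ x), Irreducible ϖ :=
  IsDiscreteValuationRing.exists_irreducible (H.plc x).toValuationSubring

theorem ord_eq (x : X) {ϖ : po_valSubring (φ x)} (hϖ : Irreducible ϖ) (f : F) :
    po_ord (φ x) f = po_ord (φ x) (ϖ : F) * (H.plc x).ord f :=
  po_ord_eq_mul_ord (φ x) (H.nonconst x) hϖ f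

theorem ord_plc_pos (x : X) : 0 < (H.plc x).ord π := by
  obtain ⟨ϖ, hϖ⟩ := H.exists_irreducible x
  have h1 := H.ord_eq x hϖ π
  rw [H.ord_pi] at h1
  have hg := po_ord_irreducible_pos (φ x) hϖ
  have hm : (0 : ℤ) < m := by exact_mod_cast H.hm
  rw [h1] at hm
  exact (mul_pos_iff_of_pos_left hg).mp hm

theorem hres_plc (x : X) : Function.Surjective (algebraMap K (H.plc x).ResidueField) :=
  H.hres _ (H.ord_plc_pos x)

/-- The constant coefficient of an element of the valuation ring does not depend on the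
embedding (among embeddings with the same valuation ring). -/
theorem coeff_zero_eq {x x' : X} (hA : po_valSubring (φ x) = po_valSubring (φ x'))
    (h : F) (hh : h ∈ po_valSubring (φ x)) : (φ x h).coeff 0 = (φ x' h).coeff 0 := by
  obtain ⟨ϖ, hϖ⟩ := H.exists_irreducible x
  obtain ⟨c, h', hh'⟩ := po_exists_peel (H.plc x) (H.hres_plc x)
    (ϖ := (ϖ : (H.plc x).toValuationSubring)) hϖ ⟨h, hh⟩
  have hϖ' := po_irreducible_transport hA ϖ hϖ
  have hmem' : (h' : F) ∈ po_valSubring (φ x') := hA ▸ h'.2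
  have key : ∀ y : X, (ϖ : F) ∈ po_valSubring (φ y) → 0 < po_ord (φ y) (ϖ : F) →
      (h' : F) ∈ po_valSubring (φ y) → (φ y h).coeff 0 = algebraMap K K' c := by
    intro y _ h2 h3
    change h = _ at hh'
    rw [hh', map_add, map_mul, po_map_algebraMap, HahnSeries.coeff_add, HahnSeries.C_apply,
      HahnSeries.coeff_single_same]
    have : po_VB (φ y (ϖ : F) * φ y (h' : F)) (po_ord (φ y) (ϖ : F) + 0) :=
      (po_VB_ord (φ y) _).mul (po_VB_of_le_ord (φ y) h3)
    rw [this 0 (by omega), add_zero]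
  rw [key x ϖ.2 (po_ord_irreducible_pos (φ x) hϖ) h'.2,
    key x' (hA ▸ ϖ.2) (po_ord_irreducible_pos (φ x') hϖ') hmem']

end po_Hyp

end Fermat.Agent.S24
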