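/-
S24 helper library (helper3): continuation of `Orbits.lean`: equal places force the same orbit,
and the orbit size is the ramification index.
-/
import Mathlib
import Fermat.Prelude.Def_AlgebraicCurve_DivisorClassGroup
import Fermat.Agent.S24.PlacesOrbits.Orbits

set_option autoImplicit false

namespace Fermat.Agent.S24

open AlgebraicCurve HahnSeries

variable {K K' F : Type*} [Field K] [Field K'] [Algebra K K'] [Field F] [Algebra K F]

namespace po_Hyp

variable {π : F} {m : ℕ} {ζ₀ : K'} {X : Type*} {φ : X → F →ₐ[K] LaurentSeries K'}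
  {p₀ : LaurentSeries K'} {ρ : Equiv.Perm X} (H : po_Hyp π m ζ₀ φ p₀ ρ)

include H

/-- Equal valuation rings give equal order functions. -/
theorem ord_eq_of_valSubring_eq {x x' : X} (hA : po_valSubring (φ x) = po_valSubring (φ x'))
    (f : F) : po_ord (φ x) f = po_ord (φ x') f := by
  obtain ⟨ϖ, hϖ⟩ := H.exists_irreducible x
  have hϖ' := po_irreducible_transport hA ϖ hϖ
  have hpl : H.plc x = H.plc x' := Place.ext hA
  have h1 := H.ord_eq x hϖ
  have h2 := H.ord_eq x' hϖ'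
  have e1 := h1 π
  have e2 := h2 π
  rw [H.ord_pi] at e1 e2
  rw [← hpl] at e2 h2
  have hpos := H.ord_plc_pos x
  have hg : po_ord (φ x) (ϖ : F) = po_ord (φ x') (ϖ : F) := by
    have : po_ord (φ x) (ϖ : F) * (H.plc x).ord π = po_ord (φ x') (ϖ : F) * (H.plc x).ord π := by
      rw [← e1]; exact e2
    exact mul_right_cancel₀ hpos.ne' this
  rw [h1 f, h2 f, hg]

/-- The numerical data attached to `x` and a uniformizer. -/
theorem numerics (x : X) {ϖ : po_valSubring (φ x)} (hϖ : Irreducible ϖ) :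
    ∃ gN e : ℕ, 0 < gN ∧ 0 < e ∧ po_ord (φ x) (ϖ : F) = gN ∧ (H.plc x).ord π = e ∧
      m = gN * e ∧ IsPrimitiveRoot (ζ₀ ^ gN) e := by
  have hg := po_ord_irreducible_pos (φ x) hϖ
  have he := H.ord_plc_pos x
  obtain ⟨gN, hgN⟩ := Int.eq_ofNat_of_zero_le hg.le
  obtain ⟨e, heN⟩ := Int.eq_ofNat_of_zero_le he.le
  have h1 := H.ord_eq x hϖ π
  rw [H.ord_pi, hgN, heN] at h1
  have hme : m = gN * e := by exact_mod_cast h1
  refine ⟨gN, e, by omega, by omega, hgN, heN, hme, H.hζ₀.pow H.hm hme⟩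

/-- If `y` and `x'` have the same valuation ring and the same leading coefficient on a
uniformizer, then `y = x'`. -/
theorem eq_of_lead [CharZero K'] {y x' : X}
    (hA : po_valSubring (φ y) = po_valSubring (φ x'))
    {ϖ : po_valSubring (φ y)} (hϖ : Irreducible ϖ)
    (hlead : (φ y (ϖ : F)).coeff (po_ord (φ y) (ϖ : F))
      = (φ x' (ϖ : F)).coeff (po_ord (φ y) (ϖ : F))) : y = x' := by
  apply H.inj
  refine po_embedding_unique (φ y) (φ x') (H.nonconst y) (H.ord_eq_of_valSubring_eq hA)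
    (H.hres_plc y) hϖ hlead π ?_ ?_
  · rw [H.ord_pi]; exact_mod_cast H.hm
  · rw [H.hφπ, H.hφπ]

/-- The `e`-th powers of the leading coefficients of a uniformizer agree. -/
theorem lead_pow_eq {x x' : X} (hA : po_valSubring (φ x) = po_valSubring (φ x'))
    {ϖ : po_valSubring (φ x)} (hϖ : Irreducible ϖ) (e : ℕ) (he : (H.plc x).ord π = e) :
    ((φ x (ϖ : F)).coeff (po_ord (φ x) (ϖ : F))) ^ e
      = ((φ x' (ϖ : F)).coeff (po_ord (φ x) (ϖ : F))) ^ e := by
  have hπ0 : π ≠ 0 := by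
    rintro rfl
    have := H.ord_plc_pos x
    simp at this
  obtain ⟨u, hu⟩ := (H.plc x).exists_unit_mul_zpow hπ0
    (π := (ϖ : (H.plc x).toValuationSubring)) hϖ
  rw [he, zpow_natCast] at hu
  set uF : F := ((u : (H.plc x).toValuationSubring) : F) with huF
  have hu0 : uF ≠ 0 := by
    intro h0
    exact (Units.ne_zero u) (Subtype.ext h0)
  have huA : uF ∈ po_valSubring (φ x) := (u : (H.plc x).toValuationSubring).2
  have hordu : po_ord (φ x) uF = 0 := po_ord_unit (φ x) u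
  have hu₀ : (φ x uF).coeff 0 ≠ 0 := by
    have := po_coeff_ord_ne_zero (φ x) hu0
    rwa [hordu] at this
  have hord := H.ord_eq_of_valSubring_eq hA
  set g : ℤ := po_ord (φ x) (ϖ : F) with hg
  have key : ∀ y : X, (∀ f, po_ord (φ x) f = po_ord (φ y) f) →
      p₀.coeff (0 + e * g) = (φ y uF).coeff 0 * ((φ y (ϖ : F)).coeff g) ^ e := by
    intro y hy
    have h1 : po_VB (φ y uF) 0 := by
      apply po_VB_of_le_ord
      rw [← hy]; exact huA
    have h2 : po_VB (φ y (ϖ : F)) g := by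
      have := po_VB_ord (φ y) (ϖ : F)
      rwa [← hy] at this
    rw [← H.hφπ y, hu, map_mul, map_pow, po_coeff_mul_corner h1 (h2.pow e),
      po_coeff_pow_corner h2]
  have k1 := key x (fun _ => rfl)
  have k2 := key x' hord
  rw [k1, H.coeff_zero_eq hA uF huA] at k2
  have hu₀' : (φ x' uF).coeff 0 ≠ 0 := by
    rw [← H.coeff_zero_eq hA uF huA]; exact hu₀
  exact mul_left_cancel₀ hu₀' k2

/-- Elements with the same valuation ring lie in the same `ρ`-orbit. -/
theorem exists_pow_eq_of_valSubring_eq [CharZero K'] {x x' : X}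
    (hA : po_valSubring (φ x) = po_valSubring (φ x')) : ∃ k : ℕ, (ρ ^ k) x = x' := by
  obtain ⟨ϖ, hϖ⟩ := H.exists_irreducible x
  obtain ⟨gN, e, hgN, he, hg, hee, hme, hprim⟩ := H.numerics x hϖ
  have hϖ0 : (ϖ : F) ≠ 0 := fun h0 => hϖ.ne_zero (Subtype.ext h0)
  have hb : (φ x (ϖ : F)).coeff (po_ord (φ x) (ϖ : F)) ≠ 0 := po_coeff_ord_ne_zero (φ x) hϖ0
  have hpow := H.lead_pow_eq hA hϖ e hee
  set b := (φ x (ϖ : F)).coeff (po_ord (φ x) (ϖ : F)) with hbdef
  set b' := (φ x' (ϖ : F)).coeff (po_ord (φ x) (ϖ : F)) with hb'def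
  have hξ : (b' / b) ^ e = 1 := by
    rw [div_pow, ← hpow, div_self (pow_ne_zero _ hb)]
  have : NeZero e := ⟨by omega⟩
  obtain ⟨k, _, hk⟩ := hprim.eq_pow_of_pow_eq_one hξ
  refine ⟨k, ?_⟩
  have hAy : po_valSubring (φ ((ρ ^ k) x)) = po_valSubring (φ x') :=
    (H.valSubring_iter k x).trans hA
  have hϖy := po_irreducible_transport (H.valSubring_iter k x).symm ϖ hϖ
  refine H.eq_of_lead hAy hϖy ?_
  simp only []
  rw [H.ord_iter, H.coeff_iter, ← hbdef, ← hb'def, hg, zpow_natCast, hk]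
  field_simp

/-- `ρ ^ k` fixes `x` iff the ramification index divides `k`. -/
theorem pow_apply_eq_iff [CharZero K'] (x : X) (e : ℕ) (he : (H.plc x).ord π = e) (k : ℕ) :
    (ρ ^ k) x = x ↔ e ∣ k := by
  obtain ⟨ϖ, hϖ⟩ := H.exists_irreducible x
  obtain ⟨gN, e', hgN, he', hg, hee, hme, hprim⟩ := H.numerics x hϖ
  have : e' = e := by
    have : (e' : ℤ) = e := by rw [← hee, he]
    exact_mod_cast this
  subst this
  have hϖ0 : (ϖ : F) ≠ 0 := fun h0 => hϖ.ne_zero (Subtype.ext h0)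
  have hb : (φ x (ϖ : F)).coeff (po_ord (φ x) (ϖ : F)) ≠ 0 := po_coeff_ord_ne_zero (φ x) hϖ0
  have hcoeff := H.coeff_iter k x (ϖ : F) (po_ord (φ x) (ϖ : F))
  rw [hg, zpow_natCast] at hcoeff
  constructor
  · intro hfix
    rw [hfix] at hcoeff
    have h1 : (ζ₀ ^ gN) ^ k = 1 := by
      have : (ζ₀ ^ gN) ^ k * (φ x (ϖ : F)).coeff (gN : ℤ) = 1 * (φ x (ϖ : F)).coeff (gN : ℤ) := by
        rw [one_mul]; exact hcoeff.symm
      rw [hg] at hb
      exact mul_right_cancel₀ hb this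
    exact (hprim.pow_eq_one_iff_dvd k).mp h1
  · intro hdvd
    have h1 : (ζ₀ ^ gN) ^ k = 1 := (hprim.pow_eq_one_iff_dvd k).mpr hdvd
    have hϖy := po_irreducible_transport (H.valSubring_iter k x).symm ϖ hϖ
    refine H.eq_of_lead (H.valSubring_iter k x) hϖy ?_
    simp only []
    rw [H.ord_iter, hg, hcoeff, h1, one_mul]

/-- The size of the `ρ`-orbit of `x` is the ramification index of `π` at the place of `x`. -/
theorem minimalPeriod_eq [CharZero K'] (x : X) :
    (Function.minimalPeriod ρ x : ℤ) = (H.plc x).ord π := by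
  obtain ⟨e, he⟩ := Int.eq_ofNat_of_zero_le (H.ord_plc_pos x).le
  rw [he]
  congr 1
  apply Nat.dvd_antisymm
  · apply Function.IsPeriodicPt.minimalPeriod_dvd
    rw [Function.IsPeriodicPt, Function.IsFixedPt, Equiv.Perm.iterate_eq_pow]
    exact (H.pow_apply_eq_iff x e he e).mpr dvd_rfl
  · apply (H.pow_apply_eq_iff x e he _).mp
    have := Function.isPeriodicPt_minimalPeriod ρ x
    rw [Function.IsPeriodicPt, Function.IsFixedPt, Equiv.Perm.iterate_eq_pow] at this
    exact this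

end po_Hyp

end Fermat.Agent.S24
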